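/-
helper47, P-ES / ES-D-A4 (Hurwitz), block (LD): the Gram matrix of the trace form modulo `p`.

`A ⊆ B` finite extension of Dedekind domains, `B` free over `A` with basis `u`, `p` a maximal
ideal of `A` all of whose primes in `B` have residue degree one.  Then the reduction modulo `p`
of the Gram matrix `G = (Tr (u i * u j))` factors as `Λᵀ * diag(e_P) * Λ` with `Λ` of size
`s × n`, `s` the number of primes over `p`; hence `rank (G mod p) ≤ s`, with equality if all
`e_P` are nonzero in `A ⧸ p`.
-/
import Fermat.Agent.H47.RH.TraceResidue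

set_option autoImplicit false
set_option linter.deprecated false
set_option linter.overlappingInstances false
set_option linter.unusedSectionVars false
set_option linter.unusedFintypeInType false
set_option linter.unusedDecidableInType false

open Algebra Module

namespace Fermat.Agent.H47.RH

attribute [local instance] Ideal.Quotient.field

section

variable {A B : Type*} [CommRing A] [CommRing B] [Algebra A B] [IsDomain A]
  [IsDedekindDomain A] [IsDedekindDomain B] [Module.IsTorsionFree A B] [Module.Finite A B]
  [Module.Free A B]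
  (p : Ideal A) [p.IsMaximal]

/-- A choice of residues: `resid p x P ∈ A` is congruent to `x` modulo `P` whenever `A → B ⧸ P`
is surjective. -/
noncomputable def resid (x : B) (P : Ideal B) : A :=
  open scoped Classical in
  if h : ∃ a : A, algebraMap A B a - x ∈ P then Classical.choose h else 0

theorem resid_spec {P : Ideal B} (hsurj : Function.Surjective (algebraMap A (B ⧸ P))) (x : B) :
    algebraMap A B (resid (A := A) x P) - x ∈ P := by
  have h : ∃ a : A, algebraMap A B a - x ∈ P := by
    obtain ⟨a, ha⟩ := hsurj (Ideal.Quotient.mk P x)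
    refine ⟨a, ?_⟩
    rw [← Ideal.Quotient.eq_zero_iff_mem, map_sub, sub_eq_zero]
    exact ha
  simp only [resid, dif_pos h]
  exact Classical.choose_spec h

/-- The matrix `Λ` of residues of the basis elements at the primes over `p`. -/
noncomputable def residMatrix {n : ℕ} (u : Module.Basis (Fin n) A B) :
    Matrix (↥(IsDedekindDomain.primesOverFinset p B)) (Fin n) (A ⧸ p) :=
  fun P i => Ideal.Quotient.mk p (resid (A := A) (u i) (P : Ideal B))

/-- The diagonal matrix of ramification indices (as elements of `A ⧸ p`). -/
noncomputable def ramDiag :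
    Matrix (↥(IsDedekindDomain.primesOverFinset p B)) (↥(IsDedekindDomain.primesOverFinset p B))
      (A ⧸ p) :=
  open scoped Classical in
  Matrix.diagonal fun P => ((p.ramificationIdx' (P : Ideal B) : ℕ) : A ⧸ p)

/-- **Factorisation of the Gram matrix modulo `p`.** -/
theorem traceMatrix_map_eq (hp : p ≠ ⊥)
    (hsurj : ∀ P ∈ IsDedekindDomain.primesOverFinset p B,
      Function.Surjective (algebraMap A (B ⧸ P)))
    {n : ℕ} (u : Module.Basis (Fin n) A B) :
    (Algebra.traceMatrix A u).map (Ideal.Quotient.mk p) =
      (residMatrix p u).transpose * ramDiag (B := B) p * residMatrix p u := by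
  classical
  ext i j
  rw [Matrix.map_apply, Algebra.traceMatrix_apply, Algebra.traceForm_apply]
  have h := trace_eq_sum_residues p hp hsurj (u i * u j)
    (fun P => resid (A := A) (u i) P * resid (A := A) (u j) P) (by
      intro P hP
      have h1 := resid_spec (A := A) (hsurj P hP) (u i)
      have h2 := resid_spec (A := A) (hsurj P hP) (u j)
      have : algebraMap A B (resid (A := A) (u i) P * resid (A := A) (u j) P) - u i * u j =
          (algebraMap A B (resid (A := A) (u i) P) - u i) * algebraMap A B (resid (A := A) (u j) P)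
            + u i * (algebraMap A B (resid (A := A) (u j) P) - u j) := by
        rw [map_mul]; ring
      rw [this]
      exact P.add_mem (P.mul_mem_right _ h1) (P.mul_mem_left _ h2))
  rw [h, Matrix.mul_apply, ← Finset.sum_coe_sort]
  refine Finset.sum_congr rfl fun P _ => ?_
  simp only [ramDiag, Matrix.mul_diagonal, Matrix.transpose_apply, residMatrix, map_mul]
  ring

/-- `rank (G mod p) ≤ s`. -/
theorem rank_traceMatrix_map_le (hp : p ≠ ⊥)
    (hsurj : ∀ P ∈ IsDedekindDomain.primesOverFinset p B,
      Function.Surjective (algebraMap A (B ⧸ P)))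
    {n : ℕ} (u : Module.Basis (Fin n) A B) :
    ((Algebra.traceMatrix A u).map (Ideal.Quotient.mk p)).rank ≤
      (IsDedekindDomain.primesOverFinset p B).card := by
  rw [traceMatrix_map_eq p hp hsurj u, Matrix.mul_assoc]
  refine (Matrix.rank_mul_le_left _ _).trans ?_
  refine (Matrix.rank_le_card_width _).trans ?_
  rw [Fintype.card_coe]

theorem mem_of_algebraMap_mem (hp : p ≠ ⊥) {P : Ideal B}
    (hP : P ∈ IsDedekindDomain.primesOverFinset p B) {a : A} (ha : algebraMap A B a ∈ P) :
    a ∈ p := by
  obtain ⟨-, h2⟩ := isMaximal_of_mem_primesOverFinset p hp hP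
  rw [h2.over]
  exact ha

/-- In the tame case `s ≤ rank (G mod p)`. -/
theorem card_le_rank_traceMatrix_map (hp : p ≠ ⊥)
    (hsurj : ∀ P ∈ IsDedekindDomain.primesOverFinset p B,
      Function.Surjective (algebraMap A (B ⧸ P)))
    {n : ℕ} (u : Module.Basis (Fin n) A B)
    (htame : ∀ P ∈ IsDedekindDomain.primesOverFinset p B,
      ((p.ramificationIdx' P : ℕ) : A ⧸ p) ≠ 0) :
    (IsDedekindDomain.primesOverFinset p B).card ≤
      ((Algebra.traceMatrix A u).map (Ideal.Quotient.mk p)).rank := by
  classical
  set Ps := IsDedekindDomain.primesOverFinset p B with hPs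
  have hex : ∀ P : Ideal B, P ∈ Ps → ∃ y : B, y - 1 ∈ P ∧
      (∀ P' : Ideal B, P'.IsPrime → p.map (algebraMap A B) ≤ P' → P' ≠ P → y ∈ P') ∧
      Ideal.Quotient.mk p (Algebra.trace A B y) = ((p.ramificationIdx' P : ℕ) : A ⧸ p) := by
    intro P hP
    obtain ⟨h1, h2⟩ := isMaximal_of_mem_primesOverFinset p hp hP
    exact exists_idempotent_lift p hp P (hsurj P hP)
  let y : ↥Ps → B := fun P => Classical.choose (hex P.1 P.2)
  have hy : ∀ P : ↥Ps, y P - 1 ∈ (P : Ideal B) ∧
      (∀ P' : Ideal B, P'.IsPrime → p.map (algebraMap A B) ≤ P' → P' ≠ (P : Ideal B) →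
        y P ∈ P') := fun P =>
    ⟨(Classical.choose_spec (hex P.1 P.2)).1, (Classical.choose_spec (hex P.1 P.2)).2.1⟩
  let Y : Matrix (Fin n) (↥Ps) (A ⧸ p) := fun i P => Ideal.Quotient.mk p (u.repr (y P) i)
  have hΛY : residMatrix p u * Y = 1 := by
    ext P P'
    rw [Matrix.mul_apply]
    simp only [residMatrix, Y]
    simp_rw [← map_mul]
    rw [← map_sum]
    have hmemP : (P : Ideal B) ∈ Ps := P.2
    obtain ⟨hPmax, hPover⟩ := isMaximal_of_mem_primesOverFinset p hp hmemP
    have hsum : algebraMap A B (∑ i, resid (A := A) (u i) (P : Ideal B) * u.repr (y P') i)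
        - y P' ∈ (P : Ideal B) := by
      have h2 : algebraMap A B (∑ i, resid (A := A) (u i) (P : Ideal B) * u.repr (y P') i)
          - ∑ i, u.repr (y P') i • u i = ∑ i, u.repr (y P') i •
            (algebraMap A B (resid (A := A) (u i) (P : Ideal B)) - u i) := by
        rw [map_sum, ← Finset.sum_sub_distrib]
        refine Finset.sum_congr rfl fun i _ => ?_
        rw [map_mul, smul_sub, Algebra.smul_def, Algebra.smul_def]
        ring
      rw [u.sum_repr] at h2
      rw [h2]
      refine Ideal.sum_mem _ fun i _ => ?_
      exact Submodule.smul_of_tower_mem _ _ (resid_spec (A := A) (hsurj _ hmemP) (u i))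
    by_cases hPP : P = P'
    · subst hPP
      rw [Matrix.one_apply_eq]
      have h3 : algebraMap A B (∑ i, resid (A := A) (u i) (P : Ideal B) * u.repr (y P) i - 1)
          ∈ (P : Ideal B) := by
        rw [map_sub, map_one]
        have := (P : Ideal B).add_mem hsum (hy P).1
        convert this using 1
        ring
      have h4 := mem_of_algebraMap_mem p hp hmemP h3
      rw [← sub_eq_zero, ← map_one (Ideal.Quotient.mk p), ← map_sub]
      exact Ideal.Quotient.eq_zero_iff_mem.mpr h4
    · rw [Matrix.one_apply_ne hPP]
      have hne : (P : Ideal B) ≠ (P' : Ideal B) := fun h => hPP (Subtype.ext h)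
      have h5 : y P' ∈ (P : Ideal B) :=
        (hy P').2 P hPmax.isPrime (map_le_of_mem_primesOverFinset p hp hmemP) hne
      have h3 : algebraMap A B (∑ i, resid (A := A) (u i) (P : Ideal B) * u.repr (y P') i)
          ∈ (P : Ideal B) := by
        have := (P : Ideal B).add_mem hsum h5
        convert this using 1
        ring
      exact Ideal.Quotient.eq_zero_iff_mem.mpr (mem_of_algebraMap_mem p hp hmemP h3)
  have hD : ramDiag (B := B) p =
      Y.transpose * ((Algebra.traceMatrix A u).map (Ideal.Quotient.mk p)) * Y := by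
    rw [traceMatrix_map_eq p hp hsurj u]
    have h1 : Y.transpose * ((residMatrix p u).transpose * ramDiag (B := B) p * residMatrix p u)
        * Y = (residMatrix p u * Y).transpose * ramDiag (B := B) p * (residMatrix p u * Y) := by
      rw [Matrix.transpose_mul]
      simp only [Matrix.mul_assoc]
    rw [h1, hΛY, Matrix.transpose_one, Matrix.one_mul, Matrix.mul_one]
  have hrD : (ramDiag (B := B) p).rank = Ps.card := by
    have hne : ∀ P : ↥(IsDedekindDomain.primesOverFinset p B),
        ((p.ramificationIdx' (P : Ideal B) : ℕ) : A ⧸ p) ≠ 0 := fun P => htame P.1 P.2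
    have h1 : (ramDiag (B := B) p).rank =
        Fintype.card {P : ↥(IsDedekindDomain.primesOverFinset p B) //
          ((p.ramificationIdx' (P : Ideal B) : ℕ) : A ⧸ p) ≠ 0} := by
      rw [ramDiag]
      exact Matrix.rank_diagonal _
    rw [h1, Fintype.card_congr (Equiv.subtypeUnivEquiv hne), Fintype.card_coe]
  rw [← hrD, hD, Matrix.mul_assoc]
  exact (Matrix.rank_mul_le_right _ _).trans (Matrix.rank_mul_le_left _ _)

end

end Fermat.Agent.H47.RH
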