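/-
helper47, P-ES / ES-D-A4 (Hurwitz), block (LD): trace modulo a maximal ideal `p` of `A` for a
finite extension of Dedekind domains `B / A` all of whose primes over `p` have residue degree one.

Main results (Mathlib only):
* `trace_mem_of_pow_mem`   : `x ^ k ∈ pB → Tr x ∈ p`;
* `exists_idempotent_lift` : for a prime `P` over `p` there is `y ∈ B` with `y ≡ 1 mod P ^ e`,
  `y ∈ P'` for all other primes `P'` over `p`, and `Tr y ≡ e mod p`;
* `trace_eq_sum_residues`  : `Tr x ≡ ∑_P e_P · a_P mod p` whenever `a_P ∈ A`, `a_P ≡ x mod P`.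
-/
import Mathlib

set_option autoImplicit false
set_option linter.deprecated false
set_option linter.overlappingInstances false
set_option linter.unusedSectionVars false
set_option linter.unusedFintypeInType false
set_option linter.unusedDecidableInType false

open Algebra Module

namespace Fermat.Agent.H47.RH

attribute [local instance] Ideal.Quotient.field
attribute [local instance] FractionRing.liftAlgebra FractionRing.isScalarTower_liftAlgebra

section

variable {A B : Type*} [CommRing A] [CommRing B] [Algebra A B] [IsDomain A]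
  [IsDedekindDomain A] [IsDedekindDomain B] [Module.IsTorsionFree A B] [Module.Finite A B]
  [Module.Free A B]
  (p : Ideal A) [p.IsMaximal]

/-- The trace of an element which is nilpotent modulo `pB` lies in `p`. -/
theorem trace_mem_of_pow_mem {x : B} {k : ℕ} (hx : x ^ k ∈ p.map (algebraMap A B)) :
    Algebra.trace A B x ∈ p := by
  rw [← Algebra.intTrace_eq_trace, ← Ideal.Quotient.eq_zero_iff_mem,
    ← Algebra.trace_quotient_eq_of_isDedekindDomain, ← isNilpotent_iff_eq_zero]
  refine Algebra.isNilpotent_trace_of_isNilpotent ⟨k, ?_⟩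
  rw [← map_pow, Ideal.Quotient.eq_zero_iff_mem]
  exact hx

/-- The trace of an element lying in every prime above `p` lies in `p`. -/
theorem trace_mem_of_forall_mem {x : B}
    (hx : ∀ P : Ideal B, P.IsPrime → p.map (algebraMap A B) ≤ P → x ∈ P) :
    Algebra.trace A B x ∈ p := by
  have hrad : x ∈ (p.map (algebraMap A B)).radical := by
    rw [Ideal.radical_eq_sInf, Submodule.mem_sInf]
    rintro P ⟨hle, hP⟩
    exact hx P hP hle
  obtain ⟨k, hk⟩ := Ideal.mem_radical_iff.mp hrad
  exact trace_mem_of_pow_mem p hk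

/-- **Idempotent lift** at a prime `P` over `p` of residue degree one: an element `y` of `B`
which is `≡ 1` modulo `P`, lies in all other primes over `p`, and has trace `≡ e(P|p)`
modulo `p`. -/
theorem exists_idempotent_lift (hp : p ≠ ⊥) (P : Ideal B) [P.IsMaximal] [P.LiesOver p]
    (hsurj : Function.Surjective (algebraMap A (B ⧸ P))) :
    ∃ y : B, y - 1 ∈ P ∧
      (∀ P' : Ideal B, P'.IsPrime → p.map (algebraMap A B) ≤ P' → P' ≠ P → y ∈ P') ∧
      Ideal.Quotient.mk p (Algebra.trace A B y) = ((p.ramificationIdx' P : ℕ) : A ⧸ p) := by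
  classical
  have hp' : p.map (algebraMap A B) ≠ ⊥ := Ideal.map_ne_bot_of_ne_bot hp
  have hP0 : P ≠ ⊥ := by
    rintro rfl
    apply hp'
    have hle : p.map (algebraMap A B) ≤ (⊥ : Ideal B) :=
      Ideal.map_le_iff_le_comap.mpr (Ideal.LiesOver.over (p := p) (P := (⊥ : Ideal B))).le
    exact le_bot_iff.mp hle
  have he0 : p.ramificationIdx' P ≠ 0 :=
    Ideal.IsDedekindDomain.ramificationIdx'_ne_zero_of_liesOver P hp
  have hcount := Ideal.IsDedekindDomain.ramificationIdx'_eq_normalizedFactors_count hp'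
    (inferInstance : P.IsPrime) hP0
  obtain ⟨Q, hPQ, hQ⟩ := Ideal.eq_prime_pow_mul_coprime hp' P
  rw [← hcount] at hQ
  set I : Ideal B := P ^ p.ramificationIdx' P with hI
  have hIQ : IsCoprime I Q := IsCoprime.pow_left (Ideal.isCoprime_iff_sup_eq.mpr hPQ)
  have : NeZero (p.ramificationIdx' P) := ⟨he0⟩
  let _ : Algebra (A ⧸ p) (B ⧸ P) := Ideal.Quotient.algebraQuotientOfRamificationIdxNeZero p P
  have hf : Module.finrank (A ⧸ p) (B ⧸ P) = 1 := by
    rw [finrank_eq_one_iff_of_nonzero' (1 : B ⧸ P) one_ne_zero]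
    intro w
    obtain ⟨a, rfl⟩ := hsurj w
    refine ⟨Ideal.Quotient.mk p a, ?_⟩
    rw [Algebra.smul_def, mul_one, Ideal.Quotient.algebraMap_quotient_of_ramificationIdx_neZero]
    rfl
  have hfe : Module.finrank (A ⧸ p) (B ⧸ I) = p.ramificationIdx' P := by
    have := Ideal.finrank_prime_pow_ramificationIdx p P hP0 he0
    rw [hf, mul_one] at this
    exact this
  have : IsScalarTower A (A ⧸ p) (B ⧸ I) :=
    IsScalarTower.of_algebraMap_eq' (by
      ext x
      exact (Ideal.Quotient.algebraMap_quotient_pow_ramificationIdx p P x).symm)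
  let _ : Algebra (A ⧸ p) (B ⧸ Q) := Ideal.Quotient.algebraQuotientOfLEComap (by
      rw [← Ideal.map_le_iff_le_comap, hQ]
      exact Ideal.mul_le_right)
  have : IsScalarTower A (A ⧸ p) (B ⧸ Q) := .of_algebraMap_eq' rfl
  have : Module.Finite (A ⧸ p) (B ⧸ I) :=
    Module.Finite.of_restrictScalars_finite A (A ⧸ p) (B ⧸ I)
  have : Module.Finite (A ⧸ p) (B ⧸ Q) :=
    Module.Finite.of_restrictScalars_finite A (A ⧸ p) (B ⧸ Q)
  let e : (B ⧸ p.map (algebraMap A B)) ≃ₐ[A ⧸ p] ((B ⧸ I) × B ⧸ Q) :=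
    { __ := (Ideal.quotEquivOfEq hQ).trans (Ideal.quotientMulEquivQuotientProd I Q hIQ),
      commutes' := by
        intro r
        obtain ⟨a, rfl⟩ := Ideal.Quotient.mk_surjective r
        refine Prod.ext ?_ ?_
        · change _ = algebraMap (A ⧸ p) (B ⧸ I) (algebraMap A (A ⧸ p) a)
          rw [← IsScalarTower.algebraMap_apply A (A ⧸ p) (B ⧸ I)]
          rfl
        · rfl }
  obtain ⟨y, hy⟩ := Ideal.Quotient.mk_surjective (e.symm ((1 : B ⧸ I), 0))
  have hy1 : y - 1 ∈ I := by
    have := congr((e $hy).1)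
    simp only [AlgEquiv.apply_symm_apply] at this
    have h2 : (e (Ideal.Quotient.mk _ y)).1 = Ideal.Quotient.mk I y := rfl
    rw [h2] at this
    rw [← Ideal.Quotient.eq_zero_iff_mem, map_sub, this, map_one, sub_self]
  have hy2 : y ∈ Q := by
    have := congr((e $hy).2)
    simp only [AlgEquiv.apply_symm_apply] at this
    have h2 : (e (Ideal.Quotient.mk _ y)).2 = Ideal.Quotient.mk Q y := rfl
    rw [h2] at this
    exact Ideal.Quotient.eq_zero_iff_mem.mp this
  refine ⟨y, ?_, ?_, ?_⟩
  · exact Ideal.pow_le_self he0 hy1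
  · intro P' hP' hle hne
    have h1 : I * Q ≤ P' := by rw [← hQ]; exact hle
    rcases (Ideal.IsPrime.mul_le hP').mp h1 with h | h
    · exfalso
      have h3 : P ≤ P' := (Ideal.IsPrime.pow_le_iff (hP := hP') he0).mp h
      exact hne ((Ideal.IsMaximal.eq_of_le (inferInstance : P.IsMaximal) hP'.ne_top h3).symm)
    · exact h hy2
  · rw [← Algebra.intTrace_eq_trace, ← Algebra.trace_quotient_eq_of_isDedekindDomain,
      hy, Algebra.trace_eq_of_algEquiv, Algebra.trace_prod_apply]
    have h1 : Algebra.trace (A ⧸ p) (B ⧸ I) 1 =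
        ((Module.finrank (A ⧸ p) (B ⧸ I) : ℕ) : A ⧸ p) := by
      have := Algebra.trace_algebraMap (R := A ⧸ p) (S := B ⧸ I) 1
      simpa using this
    simp [h1, hfe]

/-- A prime of `B` containing `pB` belongs to `primesOverFinset p B`. -/
theorem mem_primesOverFinset_of_le (hp : p ≠ ⊥) {P : Ideal B} (hP : P.IsPrime)
    (hle : p.map (algebraMap A B) ≤ P) : P ∈ IsDedekindDomain.primesOverFinset p B := by
  rw [IsDedekindDomain.mem_primesOverFinset_iff hp B]
  refine ⟨hP, ⟨?_⟩⟩
  have h1 : p ≤ P.comap (algebraMap A B) := Ideal.map_le_iff_le_comap.mp hle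
  have h2 : P.comap (algebraMap A B) ≠ ⊤ := (Ideal.comap_isPrime (algebraMap A B) P).ne_top
  exact Ideal.IsMaximal.eq_of_le (inferInstance : p.IsMaximal) h2 h1

/-- Members of `primesOverFinset p B` are maximal ideals lying over `p`. -/
theorem isMaximal_of_mem_primesOverFinset (hp : p ≠ ⊥) {P : Ideal B}
    (hP : P ∈ IsDedekindDomain.primesOverFinset p B) : P.IsMaximal ∧ P.LiesOver p := by
  rw [IsDedekindDomain.mem_primesOverFinset_iff hp B] at hP
  obtain ⟨h1, h2⟩ := hP
  refine ⟨?_, h2⟩
  apply Ideal.IsPrime.isMaximal h1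
  rintro rfl
  apply Ideal.map_ne_bot_of_ne_bot (S := B) hp
  have hle : p.map (algebraMap A B) ≤ (⊥ : Ideal B) :=
    Ideal.map_le_iff_le_comap.mpr (Ideal.LiesOver.over (p := p) (P := (⊥ : Ideal B))).le
  exact le_bot_iff.mp hle

theorem map_le_of_mem_primesOverFinset (hp : p ≠ ⊥) {P : Ideal B}
    (hP : P ∈ IsDedekindDomain.primesOverFinset p B) : p.map (algebraMap A B) ≤ P := by
  obtain ⟨-, h2⟩ := isMaximal_of_mem_primesOverFinset p hp hP
  exact Ideal.map_le_iff_le_comap.mpr h2.over.le

/-- **Trace modulo `p` as a weighted sum of residues.**  If all primes over `p` have residue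
degree one and `a P ∈ A` is congruent to `x` modulo `P` for every prime `P` over `p`, then
`Tr x ≡ ∑_P e(P|p) · a P` modulo `p`. -/
theorem trace_eq_sum_residues (hp : p ≠ ⊥)
    (hsurj : ∀ P ∈ IsDedekindDomain.primesOverFinset p B,
      Function.Surjective (algebraMap A (B ⧸ P)))
    (x : B) (a : Ideal B → A)
    (ha : ∀ P ∈ IsDedekindDomain.primesOverFinset p B, algebraMap A B (a P) - x ∈ P) :
    Ideal.Quotient.mk p (Algebra.trace A B x) =
      ∑ P ∈ IsDedekindDomain.primesOverFinset p B,
        ((p.ramificationIdx' P : ℕ) : A ⧸ p) * Ideal.Quotient.mk p (a P) := by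
  classical
  set Ps := IsDedekindDomain.primesOverFinset p B with hPs
  have hex : ∀ P : Ideal B, P ∈ Ps → ∃ y : B, y - 1 ∈ P ∧
      (∀ P' : Ideal B, P'.IsPrime → p.map (algebraMap A B) ≤ P' → P' ≠ P → y ∈ P') ∧
      Ideal.Quotient.mk p (Algebra.trace A B y) = ((p.ramificationIdx' P : ℕ) : A ⧸ p) := by
    intro P hP
    obtain ⟨h1, h2⟩ := isMaximal_of_mem_primesOverFinset p hp hP
    exact exists_idempotent_lift p hp P (hsurj P hP)
  let y : Ideal B → B := fun P => if h : P ∈ Ps then Classical.choose (hex P h) else 0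
  have hy : ∀ P, ∀ h : P ∈ Ps, y P - 1 ∈ P ∧
      (∀ P' : Ideal B, P'.IsPrime → p.map (algebraMap A B) ≤ P' → P' ≠ P → y P ∈ P') ∧
      Ideal.Quotient.mk p (Algebra.trace A B (y P)) = ((p.ramificationIdx' P : ℕ) : A ⧸ p) := by
    intro P h
    simp only [y, dif_pos h]
    exact Classical.choose_spec (hex P h)
  set z : B := x - ∑ P ∈ Ps, algebraMap A B (a P) * y P with hz
  have hzmem : ∀ P' : Ideal B, P'.IsPrime → p.map (algebraMap A B) ≤ P' → z ∈ P' := by
    intro P' hP' hle
    have hmem : P' ∈ Ps := mem_primesOverFinset_of_le p hp hP' hle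
    have h1 : z = -(algebraMap A B (a P') - x) - algebraMap A B (a P') * (y P' - 1)
        - ∑ P ∈ Ps.erase P', algebraMap A B (a P) * y P := by
      rw [hz, ← Finset.add_sum_erase Ps _ hmem]
      ring
    rw [h1]
    refine P'.sub_mem (P'.sub_mem (P'.neg_mem (ha P' hmem)) (P'.mul_mem_left _ (hy P' hmem).1)) ?_
    refine P'.sum_mem fun P hP => ?_
    have hP1 : P ∈ Ps := Finset.mem_of_mem_erase hP
    have hP2 : P ≠ P' := Finset.ne_of_mem_erase hP
    exact P'.mul_mem_left _ ((hy P hP1).2.1 P' hP' hle hP2.symm)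
  have hztr : Algebra.trace A B z ∈ p := trace_mem_of_forall_mem p hzmem
  have hx : x = z + ∑ P ∈ Ps, algebraMap A B (a P) * y P := by rw [hz]; ring
  have htr : Algebra.trace A B x =
      Algebra.trace A B z + ∑ P ∈ Ps, a P * Algebra.trace A B (y P) := by
    conv_lhs => rw [hx]
    rw [map_add, map_sum]
    congr 1
    refine Finset.sum_congr rfl fun P _ => ?_
    rw [← Algebra.smul_def, map_smul, smul_eq_mul]
  rw [htr, map_add, Ideal.Quotient.eq_zero_iff_mem.mpr hztr, zero_add, map_sum]
  refine Finset.sum_congr rfl fun P hP => ?_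
  rw [map_mul, (hy P hP).2.2, mul_comm]

end

end Fermat.Agent.H47.RH
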