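/-
helper47, P-ES / ES-D-A4 (Hurwitz), block (LD), tame half: if all primes over `p = (t)` have
residue degree one and ramification index prime to the residue characteristic, then there is
`d ∈ A`, `t ∤ d`, with `d * t ∈ differentIdeal A B`; hence `d * t * G⁻¹` is integral, where `G`
is the Gram matrix of the trace form in a basis of `B` over `A`.
-/
import Fermat.Agent.H47.ESD.TameDifferent
import Fermat.Agent.H47.RH.TraceResidue

set_option autoImplicit false
set_option linter.deprecated false
set_option linter.overlappingInstances false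
set_option linter.unusedSectionVars false
set_option linter.unusedFintypeInType false
set_option linter.unusedDecidableInType false

open Algebra Module UniqueFactorizationMonoid

namespace Fermat.Agent.H47.RH

attribute [local instance] Ideal.Quotient.field
attribute [local instance] FractionRing.liftAlgebra FractionRing.isScalarTower_liftAlgebra

section

variable {A B : Type*} [CommRing A] [CommRing B] [Algebra A B] [IsDomain A]
  [IsDedekindDomain A] [IsDedekindDomain B] [Module.IsTorsionFree A B] [Module.Finite A B]
  [Module.Free A B] [Algebra.IsSeparable (FractionRing A) (FractionRing B)]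
  (p : Ideal A) [p.IsMaximal]

/-- In the tame case the different divides `pB * I'` for an ideal `I'` coprime to `pB`. -/
theorem exists_coprime_mul_le_differentIdeal (hp : p ≠ ⊥)
    (hsurj : ∀ P ∈ IsDedekindDomain.primesOverFinset p B,
      Function.Surjective (algebraMap A (B ⧸ P)))
    (htame : ∀ P ∈ IsDedekindDomain.primesOverFinset p B,
      ((p.ramificationIdx' P : ℕ) : A ⧸ p) ≠ 0) :
    ∃ I' : Ideal B, I' ≠ ⊥ ∧ IsCoprime I' (p.map (algebraMap A B)) ∧
      p.map (algebraMap A B) * I' ≤ differentIdeal A B := by
  classical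
  have hp' : p.map (algebraMap A B) ≠ ⊥ := Ideal.map_ne_bot_of_ne_bot hp
  have hD : differentIdeal A B ≠ ⊥ := differentIdeal_ne_bot
  set F := normalizedFactors (differentIdeal A B) with hF
  set Dt : Ideal B := (F.filter (fun Q => p.map (algebraMap A B) ≤ Q)).prod with hDt
  set I' : Ideal B := (F.filter (fun Q => ¬ p.map (algebraMap A B) ≤ Q)).prod with hI'
  have hprod : Dt * I' = differentIdeal A B := by
    rw [hDt, hI', Multiset.prod_filter_mul_prod_filter_not, hF,
      Ideal.prod_normalizedFactors_eq_self hD]
  have hFprime : ∀ Q ∈ F, Prime Q := fun Q hQ => prime_of_normalized_factor Q hQ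
  -- `Dt ∣ pB`
  have hDt_dvd : Dt ∣ p.map (algebraMap A B) := by
    have hDt0 : Dt ≠ 0 := by
      rw [hDt]
      refine Multiset.prod_ne_zero fun h0 => ?_
      exact (hFprime 0 (Multiset.mem_of_mem_filter h0)).ne_zero rfl
    rw [dvd_iff_normalizedFactors_le_normalizedFactors hDt0 hp', hDt,
      normalizedFactors_prod_of_prime (fun Q hQ => hFprime Q (Multiset.mem_of_mem_filter hQ)),
      Multiset.le_iff_count]
    intro Q
    rw [Multiset.count_filter]
    split_ifs with hQ
    · by_cases hQF : Q ∈ F
      · have hQprime : Q.IsPrime := Ideal.isPrime_of_prime (hFprime Q hQF)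
        have hQmem : Q ∈ IsDedekindDomain.primesOverFinset p B :=
          mem_primesOverFinset_of_le p hp hQprime hQ
        obtain ⟨hQmax, hQover⟩ := isMaximal_of_mem_primesOverFinset p hp hQmem
        have h1 := Ideal.ramificationIdx'_eq_ramificationIdx p Q hp
        have h2 := Fermat.Agent.H47.count_differentIdeal_eq_of_tame A hp Q (hsurj Q hQmem)
          (by rw [← h1]; exact htame Q hQmem)
        have h3 := Ideal.IsDedekindDomain.ramificationIdx_eq_normalizedFactors_count p Q hp'
        rw [hF, h2, ← h3]
        exact Nat.sub_le _ _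
      · rw [Multiset.count_eq_zero_of_notMem hQF]
        exact Nat.zero_le _
    · exact Nat.zero_le _
  obtain ⟨X, hX⟩ := hDt_dvd
  refine ⟨I', ?_, ?_, ?_⟩
  · rintro h0
    rw [h0, Ideal.mul_bot] at hprod
    exact hD hprod.symm
  · -- coprimality
    rw [Ideal.isCoprime_iff_sup_eq]
    by_contra hne
    obtain ⟨M, hM, hle⟩ := Ideal.exists_le_maximal _ hne
    have hI'M : I' ≤ M := le_sup_left.trans hle
    have hpM : p.map (algebraMap A B) ≤ M := le_sup_right.trans hle
    rw [hI', Ideal.IsPrime.multiset_prod_le hM.isPrime] at hI'M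
    obtain ⟨Q, hQ, hQM⟩ := hI'M
    have hQF : Q ∈ F := Multiset.mem_of_mem_filter hQ
    have hQnot : ¬ p.map (algebraMap A B) ≤ Q := (Multiset.mem_filter.mp hQ).2
    have hQprime : Q.IsPrime := Ideal.isPrime_of_prime (hFprime Q hQF)
    have hQ0 : Q ≠ ⊥ := (hFprime Q hQF).ne_zero
    have hQmax : Q.IsMaximal := Ideal.IsPrime.isMaximal hQprime hQ0
    have : Q = M := Ideal.IsMaximal.eq_of_le hQmax hM.ne_top hQM
    exact hQnot (this ▸ hpM)
  · rw [hX, mul_assoc, mul_comm X I', ← mul_assoc, hprod]
    exact Ideal.mul_le_left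

/-- In the tame case (with `p = (t)` principal) there is `d ∉ p` with `d • pB ≤ different`. -/
theorem exists_notMem_mul_mem_differentIdeal (t : A) (ht : p = Ideal.span {t}) (hp : p ≠ ⊥)
    (hsurj : ∀ P ∈ IsDedekindDomain.primesOverFinset p B,
      Function.Surjective (algebraMap A (B ⧸ P)))
    (htame : ∀ P ∈ IsDedekindDomain.primesOverFinset p B,
      ((p.ramificationIdx' P : ℕ) : A ⧸ p) ≠ 0) :
    ∃ d : A, d ∉ p ∧ algebraMap A B (d * t) ∈ differentIdeal A B := by
  obtain ⟨I', hI'0, hcop, hle⟩ := exists_coprime_mul_le_differentIdeal p hp hsurj htame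
  have hpB : p.map (algebraMap A B) = Ideal.span {algebraMap A B t} := by
    rw [ht, Ideal.map_span, Set.image_singleton]
  have ht0 : t ≠ 0 := by
    rintro rfl
    apply hp
    rw [ht]
    simp
  have htprime : Prime t := by
    have h1 : (Ideal.span {t}).IsPrime := ht ▸ (inferInstance : p.IsMaximal).isPrime
    exact (Ideal.span_singleton_prime ht0).mp h1
  -- a nonzero element of `I' ∩ A`
  have hcomap : I'.comap (algebraMap A B) ≠ ⊥ := fun h => hI'0 (Ideal.eq_bot_of_comap_eq_bot h)
  obtain ⟨a, haI, ha0⟩ := Submodule.exists_mem_ne_zero_of_ne_bot hcomap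
  obtain ⟨k, a', hta', rfl⟩ := WfDvdMonoid.max_power_factor ha0 htprime.irreducible
  -- `1 = β t^k + x` with `x ∈ I'`
  have hcop' : IsCoprime (Ideal.span {algebraMap A B t ^ k}) I' := by
    rw [← Ideal.span_singleton_pow, ← hpB]
    exact (hcop.symm).pow_left
  obtain ⟨z, hz, x, hx, hzx⟩ := Ideal.isCoprime_iff_exists.mp hcop'
  obtain ⟨β, rfl⟩ := Ideal.mem_span_singleton'.mp hz
  have haI' : algebraMap A B (t ^ k * a') ∈ I' := haI
  have ha'I : algebraMap A B a' ∈ I' := by
    have h1 : algebraMap A B a' =
        β * algebraMap A B (t ^ k * a') + algebraMap A B a' * x := by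
      have : algebraMap A B a' = algebraMap A B a' * (β * algebraMap A B t ^ k + x) := by
        rw [hzx, mul_one]
      conv_lhs => rw [this]
      rw [map_mul, map_pow]
      ring
    rw [h1]
    exact I'.add_mem (I'.mul_mem_left _ haI') (I'.mul_mem_left _ hx)
  refine ⟨a', ?_, ?_⟩
  · rw [ht, Ideal.mem_span_singleton]
    exact hta'
  · apply hle
    rw [map_mul, mul_comm (algebraMap A B a')]
    refine Ideal.mul_mem_mul ?_ ha'I
    rw [hpB]
    exact Ideal.mem_span_singleton_self _

open nonZeroDivisors in
/-- If `c ∈ A` lies in the different, then `c • G⁻¹` is integral: there is a matrix `H` over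
`A` with `H * G = c • 1`, where `G` is the Gram matrix of the trace form in the basis `u`. -/
theorem exists_matrix_mul_traceMatrix_eq {n : ℕ} (u : Module.Basis (Fin n) A B) (c : A)
    (hc : algebraMap A B c ∈ differentIdeal A B) :
    ∃ H : Matrix (Fin n) (Fin n) A, H * Algebra.traceMatrix A u = c • (1 : Matrix _ _ A) := by
  classical
  let K := FractionRing A
  let L := FractionRing B
  have : IsLocalization (Algebra.algebraMapSubmonoid B A⁰) L :=
    IsIntegralClosure.isLocalization _ K _ _
  have : FiniteDimensional K L := .of_isLocalization A B A⁰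
  let bL : Module.Basis (Fin n) K L := u.localizationLocalization K A⁰ L
  have hbL : ∀ i, bL i = algebraMap B L (u i) := fun i =>
    Module.Basis.localizationLocalization_apply K A⁰ L u i
  let bd := (Algebra.traceForm K L).dualBasis (traceForm_nondegenerate K L) bL
  have hbd : ∀ i j, Algebra.trace K L (bd i * bL j) = if j = i then 1 else 0 := fun i j => by
    have := LinearMap.BilinForm.apply_dualBasis_left (traceForm_nondegenerate K L) bL i j
    rwa [Algebra.traceForm_apply] at this
  -- `bd i` lies in the dual of `1`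
  have hmem_dual : ∀ i, bd i ∈ FractionalIdeal.dual A K (1 : FractionalIdeal B⁰ L) := by
    intro i
    rw [FractionalIdeal.mem_dual (by simp)]
    intro a ha
    obtain ⟨β, rfl⟩ := (FractionalIdeal.mem_one_iff _).mp ha
    rw [Algebra.traceForm_apply]
    have h1 : algebraMap B L β = ∑ j, algebraMap A K (u.repr β j) • bL j := by
      conv_lhs => rw [← bL.sum_repr (algebraMap B L β)]
      refine Finset.sum_congr rfl fun j _ => ?_
      rw [Module.Basis.localizationLocalization_repr_algebraMap]
    rw [h1, Finset.mul_sum, map_sum]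
    refine ⟨u.repr β i, ?_⟩
    rw [Finset.sum_eq_single i]
    · rw [mul_smul_comm, map_smul, hbd, if_pos rfl, smul_eq_mul, mul_one]
    · intro j _ hji
      rw [mul_smul_comm, map_smul, hbd, if_neg hji, smul_zero]
    · intro h
      exact absurd (Finset.mem_univ i) h
  -- `c • bd i` lies in `B`
  have hD0 : (differentIdeal A B : FractionalIdeal B⁰ L) ≠ 0 :=
    FractionalIdeal.coeIdeal_ne_zero.mpr differentIdeal_ne_bot
  have hinB : ∀ i, ∃ γ : B, algebraMap B L γ = algebraMap B L (algebraMap A B c) * bd i := by
    intro i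
    have h1 : algebraMap B L (algebraMap A B c) ∈ (differentIdeal A B : FractionalIdeal B⁰ L) :=
      (FractionalIdeal.mem_coeIdeal _).mpr ⟨_, hc, rfl⟩
    have h2 : bd i ∈ ((differentIdeal A B : FractionalIdeal B⁰ L))⁻¹ := by
      rw [coeIdeal_differentIdeal A K L B, inv_inv]
      exact hmem_dual i
    have h3 := FractionalIdeal.mul_mem_mul h1 h2
    rw [mul_inv_cancel₀ hD0] at h3
    exact (FractionalIdeal.mem_one_iff _).mp h3
  choose γ hγ using hinB
  refine ⟨Matrix.of fun i j => u.repr (γ i) j, ?_⟩
  ext i k
  rw [Matrix.mul_apply]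
  simp only [Matrix.of_apply, Algebra.traceMatrix_apply, Algebra.traceForm_apply]
  have h1 : ∑ j, u.repr (γ i) j * Algebra.trace A B (u j * u k) =
      Algebra.trace A B (γ i * u k) := by
    conv_rhs => rw [← u.sum_repr (γ i), Finset.sum_mul, map_sum]
    refine Finset.sum_congr rfl fun j _ => ?_
    rw [smul_mul_assoc, map_smul, smul_eq_mul]
  rw [h1]
  apply IsFractionRing.injective A K
  rw [← Algebra.trace_localization A A⁰ (Rₘ := K) (Sₘ := L), map_mul, hγ, ← hbL,
    mul_assoc, ← IsScalarTower.algebraMap_apply, IsScalarTower.algebraMap_apply A K L,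
    ← Algebra.smul_def, map_smul, hbd, Matrix.smul_apply, Matrix.one_apply]
  split_ifs with h1 h2 h2
  · simp
  · exact absurd h1.symm h2
  · exact absurd h2.symm h1
  · simp

end

end Fermat.Agent.H47.RH
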