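/-
helper47, P-ES / ES-D-A4 (Hurwitz), block (LD): core statement over `k = A ⧸ p`.

`A` Dedekind, `p = (t)` a principal maximal ideal, `B ⊇ A` a finite free Dedekind extension with
separable fraction field extension, all primes of `B` over `p` of residue degree one, `u` a
basis of `B` over `A`, `G` the Gram matrix of the trace form, `s` the number of primes over `p`.
Assuming the corank/determinant lemma (CD) for matrices over `A`:
* `∑_P e_P = n`, `s ≤ n`;
* `t ^ (n - s) ∣ det G`;
* in the tame case `¬ t ^ (n - s + 1) ∣ det G`.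
-/
import Fermat.Agent.H47.RH.GramRank
import Fermat.Agent.H47.RH.TameDual

set_option autoImplicit false
set_option linter.deprecated false
set_option linter.overlappingInstances false
set_option linter.unusedSectionVars false
set_option linter.unusedFintypeInType false
set_option linter.unusedDecidableInType false

open Algebra Module

namespace Fermat.Agent.H47.RH

attribute [local instance] Ideal.Quotient.field
attribute [local instance] FractionRing.liftAlgebra FractionRing.isScalarTower_liftAlgebra

section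

variable {A B : Type*} [CommRing A] [CommRing B] [Algebra A B] [IsDomain A]
  [IsDedekindDomain A] [IsDedekindDomain B] [Module.IsTorsionFree A B] [Module.Finite A B]
  [Module.Free A B] [Algebra.IsSeparable (FractionRing A) (FractionRing B)]
  (p : Ideal A) [p.IsMaximal]

open nonZeroDivisors in
/-- `∑_P e_P = n` when all residue degrees are one. -/
theorem sum_ramificationIdx_eq (hp : p ≠ ⊥)
    (hsurj : ∀ P ∈ IsDedekindDomain.primesOverFinset p B,
      Function.Surjective (algebraMap A (B ⧸ P)))
    {n : ℕ} (u : Module.Basis (Fin n) A B) :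
    ∑ P ∈ IsDedekindDomain.primesOverFinset p B, p.ramificationIdx' P = n := by
  classical
  let K := FractionRing A
  let L := FractionRing B
  have : IsLocalization (Algebra.algebraMapSubmonoid B A⁰) L :=
    IsIntegralClosure.isLocalization _ K _ _
  have : FiniteDimensional K L := .of_isLocalization A B A⁰
  let bL : Module.Basis (Fin n) K L := u.localizationLocalization K A⁰ L
  have h1 := Ideal.sum_ramification_inertia B K L hp
  rw [Module.finrank_eq_card_basis bL, Fintype.card_fin] at h1
  rw [← h1]
  refine Finset.sum_congr rfl fun P hP => ?_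
  obtain ⟨hPmax, hPover⟩ := isMaximal_of_mem_primesOverFinset p hp hP
  have hf : p.inertiaDeg' P = 1 := by
    rw [Ideal.inertiaDeg'_algebraMap]
    rw [finrank_eq_one_iff_of_nonzero' (1 : B ⧸ P) one_ne_zero]
    intro w
    obtain ⟨a, rfl⟩ := hsurj P hP w
    refine ⟨Ideal.Quotient.mk p a, ?_⟩
    rw [Algebra.smul_def, mul_one, Ideal.Quotient.algebraMap_mk_of_liesOver]
    rfl
  rw [hf, mul_one]

theorem one_le_ramificationIdx (hp : p ≠ ⊥) {P : Ideal B}
    (hP : P ∈ IsDedekindDomain.primesOverFinset p B) : 1 ≤ p.ramificationIdx' P := by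
  obtain ⟨hPmax, hPover⟩ := isMaximal_of_mem_primesOverFinset p hp hP
  exact Nat.one_le_iff_ne_zero.mpr
    (Ideal.IsDedekindDomain.ramificationIdx'_ne_zero_of_liesOver P hp)

/-- `s ≤ n`. -/
theorem card_primesOver_le (hp : p ≠ ⊥)
    (hsurj : ∀ P ∈ IsDedekindDomain.primesOverFinset p B,
      Function.Surjective (algebraMap A (B ⧸ P)))
    {n : ℕ} (u : Module.Basis (Fin n) A B) :
    (IsDedekindDomain.primesOverFinset p B).card ≤ n := by
  rw [← sum_ramificationIdx_eq p hp hsurj u, Finset.card_eq_sum_ones]
  exact Finset.sum_le_sum fun P hP => one_le_ramificationIdx p hp hP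

/-- `∑_P (e_P - 1) = n - s`. -/
theorem sum_ramificationIdx_sub_one_eq (hp : p ≠ ⊥)
    (hsurj : ∀ P ∈ IsDedekindDomain.primesOverFinset p B,
      Function.Surjective (algebraMap A (B ⧸ P)))
    {n : ℕ} (u : Module.Basis (Fin n) A B) :
    ∑ P ∈ IsDedekindDomain.primesOverFinset p B, (p.ramificationIdx' P - 1) =
      n - (IsDedekindDomain.primesOverFinset p B).card := by
  have h1 := sum_ramificationIdx_eq p hp hsurj u
  have h2 : ∑ P ∈ IsDedekindDomain.primesOverFinset p B, (p.ramificationIdx' P - 1) +
      (IsDedekindDomain.primesOverFinset p B).card = n := by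
    rw [Finset.card_eq_sum_ones, ← Finset.sum_add_distrib, ← h1]
    refine Finset.sum_congr rfl fun P hP => ?_
    have := one_le_ramificationIdx p hp hP
    omega
  omega

/-- **(LD), inequality half**: `t ^ (n - s) ∣ det G`. -/
theorem pow_dvd_det_traceMatrix (t : A) (hp : p ≠ ⊥)
    (hsurj : ∀ P ∈ IsDedekindDomain.primesOverFinset p B,
      Function.Surjective (algebraMap A (B ⧸ P)))
    {n : ℕ} (u : Module.Basis (Fin n) A B)
    (hCD : ∀ (c : ℕ) (M : Matrix (Fin n) (Fin n) A),
      (M.map (Ideal.Quotient.mk p)).rank + c ≤ n → t ^ c ∣ M.det) :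
    t ^ (n - (IsDedekindDomain.primesOverFinset p B).card) ∣ (Algebra.traceMatrix A u).det := by
  apply hCD
  have h1 := rank_traceMatrix_map_le p hp hsurj u
  have h2 := card_primesOver_le p hp hsurj u
  omega

/-- **(LD), tame half**: `¬ t ^ (n - s + 1) ∣ det G` if all `e_P` are nonzero in `A ⧸ p`. -/
theorem not_pow_succ_dvd_det_traceMatrix (t : A) (ht : p = Ideal.span {t}) (hp : p ≠ ⊥)
    (hsurj : ∀ P ∈ IsDedekindDomain.primesOverFinset p B,
      Function.Surjective (algebraMap A (B ⧸ P)))
    {n : ℕ} (u : Module.Basis (Fin n) A B)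
    (hCD : ∀ (c : ℕ) (M : Matrix (Fin n) (Fin n) A),
      (M.map (Ideal.Quotient.mk p)).rank + c ≤ n → t ^ c ∣ M.det)
    (htame : ∀ P ∈ IsDedekindDomain.primesOverFinset p B,
      ((p.ramificationIdx' P : ℕ) : A ⧸ p) ≠ 0) :
    ¬ t ^ (n - (IsDedekindDomain.primesOverFinset p B).card + 1) ∣
      (Algebra.traceMatrix A u).det := by
  classical
  set s := (IsDedekindDomain.primesOverFinset p B).card with hs
  set G := Algebra.traceMatrix A u with hG
  have hsn : s ≤ n := card_primesOver_le p hp hsurj u
  have ht0 : t ≠ 0 := by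
    rintro rfl
    apply hp
    rw [ht]
    simp
  have htprime : Prime t := by
    have h1 : (Ideal.span {t}).IsPrime := ht ▸ (inferInstance : p.IsMaximal).isPrime
    exact (Ideal.span_singleton_prime ht0).mp h1
  obtain ⟨d, hd, hdt⟩ := exists_notMem_mul_mem_differentIdeal p t ht hp hsurj htame
  obtain ⟨H, hH⟩ := exists_matrix_mul_traceMatrix_eq u (d * t) hdt
  -- ranks modulo `p`
  have hmk : Ideal.Quotient.mk p (d * t) = 0 := by
    rw [Ideal.Quotient.eq_zero_iff_mem, ht]
    exact Ideal.mul_mem_left _ _ (Ideal.mem_span_singleton_self t)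
  have hzero : H.map (Ideal.Quotient.mk p) * G.map (Ideal.Quotient.mk p) = 0 := by
    rw [← Matrix.map_mul, hH]
    ext i j
    simp [Matrix.map_apply, Matrix.smul_apply, hmk]
  have hrank := Matrix.rank_add_rank_le_card_of_mul_eq_zero hzero
  rw [Fintype.card_fin] at hrank
  have hGrank : s ≤ (G.map (Ideal.Quotient.mk p)).rank :=
    card_le_rank_traceMatrix_map p hp hsurj u htame
  have hHdet : t ^ s ∣ H.det := hCD s H (by omega)
  -- determinants
  have hdet : H.det * G.det = (d * t) ^ n := by
    rw [← Matrix.det_mul, hH, Matrix.det_smul, Matrix.det_one, mul_one, Fintype.card_fin]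
  intro hdvd
  obtain ⟨h', hh'⟩ := hHdet
  obtain ⟨g', hg'⟩ := hdvd
  have h1 : t ^ n * (t * (h' * g')) = t ^ n * d ^ n := by
    have : t ^ s * h' * (t ^ (n - s + 1) * g') = (d * t) ^ n := by rw [← hh', ← hg', hdet]
    have hpow : t ^ s * t ^ (n - s + 1) = t ^ n * t := by
      rw [← pow_add, ← pow_succ]
      congr 1
      omega
    calc t ^ n * (t * (h' * g')) = (t ^ n * t) * (h' * g') := by ring
      _ = t ^ s * t ^ (n - s + 1) * (h' * g') := by rw [hpow]
      _ = t ^ s * h' * (t ^ (n - s + 1) * g') := by ring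
      _ = (d * t) ^ n := this
      _ = t ^ n * d ^ n := by ring
  have h2 : t * (h' * g') = d ^ n := mul_left_cancel₀ (pow_ne_zero n ht0) h1
  have h3 : t ∣ d ^ n := ⟨_, h2.symm⟩
  have h4 : t ∣ d := htprime.dvd_of_dvd_pow h3
  apply hd
  rw [ht, Ideal.mem_span_singleton]
  exact h4

end

end Fermat.Agent.H47.RH
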