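/-
helper47, P-ES / ES-D-A4 (Hurwitz), block (LD): `Fermat.Agent.H56.RH.LocalDiscrStatement`.
Translation layer from the core (`Fermat.Agent.H47.RH.LocalDiscrCore`) to the interface.
-/
import Fermat.Agent.H56.RH.Interfaces
import Fermat.Agent.H47.RH.LocalDiscrCore
import Fermat.Agent.H75.RHCorankTrace

set_option autoImplicit false
set_option linter.deprecated false
set_option linter.overlappingInstances false
set_option linter.unusedSectionVars false
set_option linter.unusedFintypeInType false
set_option linter.unusedDecidableInType false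

open Algebra Module IsDedekindDomain

namespace Fermat.Agent.H47.RH

attribute [local instance] Ideal.Quotient.field
attribute [local instance] FractionRing.liftAlgebra FractionRing.isScalarTower_liftAlgebra

section bridge

variable {A B : Type} [CommRing A] [CommRing B] [IsDomain B] [IsDedekindDomain B] [Algebra A B]

/-- `expAt t P` is the ramification index of `P` over `(t)`. -/
theorem expAt_eq_ramificationIdx' (t : A) (ht : algebraMap A B t ≠ 0) (P : HeightOneSpectrum B) :
    Fermat.Agent.H56.RH.expAt t P = (Ideal.span {t}).ramificationIdx' P.asIdeal := by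
  classical
  set x := algebraMap A B t with hx
  set m := (Associates.mk P.asIdeal).count (Associates.mk (Ideal.span {x})).factors with hm
  have hval : P.intValuation x = WithZero.exp (-(m : ℤ)) := P.intValuation_if_neg ht
  have hexp : Fermat.Agent.H56.RH.expAt t P = m := by
    unfold Fermat.Agent.H56.RH.expAt
    rw [← hx, hval, WithZero.log_exp]
    simp
  have hmap : (Ideal.span {t}).map (algebraMap A B) = Ideal.span {x} := by
    rw [Ideal.map_span, Set.image_singleton]
  have hle : ∀ k : ℕ, (Ideal.span {t}).map (algebraMap A B) ≤ P.asIdeal ^ k ↔ k ≤ m := by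
    intro k
    rw [hmap, Ideal.span_singleton_le_iff_mem, ← P.intValuation_le_pow_iff_mem, hval,
      WithZero.exp_le_exp]
    omega
  rw [hexp]
  symm
  apply Ideal.ramificationIdx'_spec
  · exact (hle m).mpr le_rfl
  · rw [hle]
    omega

end bridge

section finsum

variable {A B : Type} [CommRing A] [CommRing B] [Algebra A B] [IsDomain A]
  [IsDedekindDomain A] [IsDedekindDomain B] [Module.IsTorsionFree A B] [Module.Finite A B]
  [Module.Free A B]
  (p : Ideal A) [p.IsMaximal]

theorem ramificationIdx'_eq_zero_of_notMem (hp : p ≠ ⊥) (P : HeightOneSpectrum B)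
    (hP : P.asIdeal ∉ IsDedekindDomain.primesOverFinset p B) : p.ramificationIdx' P.asIdeal = 0 := by
  by_contra h
  apply hP
  refine mem_primesOverFinset_of_le p hp P.isPrime ?_
  have := Ideal.le_pow_of_le_ramificationIdx' (p := p) (P := P.asIdeal)
    (Nat.one_le_iff_ne_zero.mpr h)
  rwa [pow_one] at this

/-- Sums over the height one spectrum of a function of the ramification index vanishing at `0`
are finite sums over the primes over `p`. -/
theorem finsum_heightOneSpectrum_eq (hp : p ≠ ⊥) (f : ℕ → ℕ) (hf : f 0 = 0) :
    ∑ᶠ P : HeightOneSpectrum B, f (p.ramificationIdx' P.asIdeal) =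
      ∑ P ∈ IsDedekindDomain.primesOverFinset p B, f (p.ramificationIdx' P) := by
  classical
  have hne : ∀ P : ↥(IsDedekindDomain.primesOverFinset p B), (P : Ideal B) ≠ ⊥ := by
    intro P
    obtain ⟨hmax, hover⟩ := isMaximal_of_mem_primesOverFinset p hp P.2
    rintro h
    apply Ideal.map_ne_bot_of_ne_bot (S := B) hp
    have hle : p.map (algebraMap A B) ≤ (P : Ideal B) :=
      map_le_of_mem_primesOverFinset p hp P.2
    rw [h] at hle
    exact le_bot_iff.mp hle
  let toHOS : ↥(IsDedekindDomain.primesOverFinset p B) → HeightOneSpectrum B := fun P =>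
    ⟨P.1, (isMaximal_of_mem_primesOverFinset p hp P.2).1.isPrime, hne P⟩
  have hinj : Function.Injective toHOS := by
    intro P Q h
    apply Subtype.ext
    exact congrArg HeightOneSpectrum.asIdeal h
  set T : Finset (HeightOneSpectrum B) := (IsDedekindDomain.primesOverFinset p B).attach.image toHOS with hT
  have hsupp : Function.support (fun P : HeightOneSpectrum B =>
      f (p.ramificationIdx' P.asIdeal)) ⊆ ↑T := by
    intro P hP
    rw [Function.mem_support] at hP
    have hmem : P.asIdeal ∈ IsDedekindDomain.primesOverFinset p B := by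
      by_contra hnot
      apply hP
      rw [ramificationIdx'_eq_zero_of_notMem p hp P hnot, hf]
    rw [hT, Finset.coe_image, Set.mem_image]
    exact ⟨⟨P.asIdeal, hmem⟩, by simp, rfl⟩
  rw [finsum_eq_sum_of_support_subset _ hsupp, hT, Finset.sum_image (fun P _ Q _ h => hinj h)]
  exact Finset.sum_attach (IsDedekindDomain.primesOverFinset p B) (fun P => f (p.ramificationIdx' P))

theorem finite_setOf_ramificationIdx'_pos (hp : p ≠ ⊥) :
    {P : HeightOneSpectrum B | 0 < p.ramificationIdx' P.asIdeal}.Finite := by
  classical
  have hinj : Function.Injective (fun P : HeightOneSpectrum B => P.asIdeal) :=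
    fun P Q h => HeightOneSpectrum.ext h
  refine Set.Finite.subset ((IsDedekindDomain.primesOverFinset p B).finite_toSet.preimage hinj.injOn) ?_
  intro P hP
  rw [Set.mem_setOf_eq] at hP
  rw [Set.mem_preimage, Finset.mem_coe]
  by_contra hnot
  rw [ramificationIdx'_eq_zero_of_notMem p hp P hnot] at hP
  exact lt_irrefl 0 hP

end finsum

/-- **(LD) local discriminant**, from the corank/determinant lemma (CD). -/
theorem localDiscr_of_corankDet (hCD : Fermat.Agent.H56.RH.CorankDetStatement) :
    Fermat.Agent.H56.RH.LocalDiscrStatement := by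
  intro K A E F B _ _ _ _ _ _ _ _ _ _ _ _ _ _ _ _ _ _ _ _ _ _ t ht hbij n u
  classical
  -- basic instances
  have : Module.Free A B := Module.Free.of_basis u
  have : Module.Finite A B := Module.Finite.of_basis u
  have : IsFractionRing B F := IsIntegralClosure.isFractionRing_of_finite_extension A E F B
  have hsep : Algebra.IsSeparable (FractionRing A) (FractionRing B) := by
    refine Algebra.IsSeparable.of_equiv_equiv (FractionRing.algEquiv A E).symm.toRingEquiv
          (FractionRing.algEquiv B F).symm.toRingEquiv ?_
    ext _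
    exact IsFractionRing.algEquiv_commutes (FractionRing.algEquiv A E).symm
      (FractionRing.algEquiv B F).symm _
  set p : Ideal A := Ideal.span {t} with hp_def
  have ht0 : t ≠ 0 := ht.ne_zero
  have hp : p ≠ ⊥ := by
    rw [hp_def, Ne, Ideal.span_singleton_eq_bot]
    exact ht0
  have hpmax : p.IsMaximal :=
    Ideal.IsPrime.isMaximal ((Ideal.span_singleton_prime ht0).mpr ht) hp
  -- the residue field `A ⧸ p ≃ K` is algebraically closed
  let e : K ≃+* (A ⧸ p) :=
    RingEquiv.ofBijective ((Ideal.Quotient.mk p).comp (algebraMap K A)) hbij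
  have hAC : IsAlgClosed (A ⧸ p) := IsAlgClosed.of_ringEquiv K (A ⧸ p) e
  -- residue degree one
  have hsurj : ∀ P ∈ IsDedekindDomain.primesOverFinset p B,
      Function.Surjective (algebraMap A (B ⧸ P)) := by
    intro P hP
    obtain ⟨hPmax, hPover⟩ := isMaximal_of_mem_primesOverFinset p hp hP
    have hbij' := IsAlgClosed.algebraMap_bijective_of_isIntegral (k := A ⧸ p) (K := B ⧸ P)
    intro w
    obtain ⟨a, ha⟩ := hbij'.2 w
    obtain ⟨a, rfl⟩ := Ideal.Quotient.mk_surjective a
    refine ⟨a, ?_⟩
    rw [← ha, Ideal.Quotient.algebraMap_mk_of_liesOver]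
    rfl
  -- (CD) specialised
  have hCD' : ∀ (c : ℕ) (M : Matrix (Fin n) (Fin n) A),
      (M.map (Ideal.Quotient.mk p)).rank + c ≤ n → t ^ c ∣ M.det := by
    intro c M h
    refine hCD (A ⧸ p) A (Ideal.Quotient.mk p) t Ideal.Quotient.mk_surjective ?_ n c M h
    intro a
    rw [Ideal.Quotient.eq_zero_iff_mem, hp_def, Ideal.mem_span_singleton]
  -- `expAt` is the ramification index
  have hx0 : algebraMap A B t ≠ 0 := by
    intro h
    exact ht0 ((FaithfulSMul.algebraMap_injective A B) (h.trans (map_zero _).symm))
  have hexp : ∀ P : HeightOneSpectrum B,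
      Fermat.Agent.H56.RH.expAt t P = p.ramificationIdx' P.asIdeal :=
    fun P => expAt_eq_ramificationIdx' t hx0 P
  -- the discriminant is nonzero
  have hdisc : Algebra.discr A u = (Algebra.traceMatrix A u).det := Algebra.discr_def A u
  have hdisc0 : Algebra.discr A u ≠ 0 := by
    have hloc : IsLocalization (Algebra.algebraMapSubmonoid B (nonZeroDivisors A)) F :=
      IsIntegralClosure.isLocalization A E F B
    have h1 := Algebra.discr_localizationLocalization A (nonZeroDivisors A) (Rₘ := E) F u
    have h2 := Algebra.discr_not_zero_of_basis E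
      (Module.Basis.localizationLocalization E (nonZeroDivisors A) F u)
    intro h0
    rw [h1, h0, map_zero] at h2
    exact h2 rfl
  have hfin : FiniteMultiplicity t (Algebra.discr A u) := FiniteMultiplicity.of_prime_left ht hdisc0
  set s := (IsDedekindDomain.primesOverFinset p B).card with hs
  have hsum1 : (∑ᶠ P : HeightOneSpectrum B, Fermat.Agent.H56.RH.expAt t P) = n := by
    simp_rw [hexp]
    rw [finsum_heightOneSpectrum_eq p hp (fun k => k) rfl]
    exact sum_ramificationIdx_eq p hp hsurj u
  have hsum2 : (∑ᶠ P : HeightOneSpectrum B, (Fermat.Agent.H56.RH.expAt t P - 1)) = n - s := by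
    simp_rw [hexp]
    rw [finsum_heightOneSpectrum_eq p hp (fun k => k - 1) rfl]
    exact sum_ramificationIdx_sub_one_eq p hp hsurj u
  have hdvd : t ^ (n - s) ∣ Algebra.discr A u := by
    rw [hdisc]
    exact pow_dvd_det_traceMatrix p t hp hsurj u hCD'
  refine ⟨?_, hsum1, ?_, ?_⟩
  · simp_rw [hexp]
    exact finite_setOf_ramificationIdx'_pos p hp
  · rw [hsum2]
    exact hfin.le_multiplicity_of_pow_dvd hdvd
  · intro htame
    rw [hsum2]
    symm
    apply multiplicity_eq_of_dvd_of_not_dvd hdvd
    rw [hdisc]
    refine not_pow_succ_dvd_det_traceMatrix p t hp_def hp hsurj u hCD' ?_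
    intro P hP
    obtain ⟨hPmax, hPover⟩ := isMaximal_of_mem_primesOverFinset p hp hP
    have hP0 : P ≠ ⊥ := by
      rintro rfl
      apply Ideal.map_ne_bot_of_ne_bot (S := B) hp
      have hle := map_le_of_mem_primesOverFinset p hp hP
      exact le_bot_iff.mp hle
    let P' : HeightOneSpectrum B := ⟨P, hPmax.isPrime, hP0⟩
    have hpos : 0 < Fermat.Agent.H56.RH.expAt t P' := by
      rw [hexp]
      exact one_le_ramificationIdx p hp hP
    have h1 := htame P' hpos
    rw [hexp] at h1
    intro h0
    apply h1
    have h2 : e ((p.ramificationIdx' P : ℕ) : K) = ((p.ramificationIdx' P : ℕ) : A ⧸ p) :=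
      map_natCast e _
    rw [h0] at h2
    exact (map_eq_zero_iff e e.injective).mp h2

/-- **(LD) local discriminant**, unconditional. -/
theorem localDiscr : Fermat.Agent.H56.RH.LocalDiscrStatement :=
  localDiscr_of_corankDet Fermat.Agent.H75.corankDet

end Fermat.Agent.H47.RH
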